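import Mathlib
import Fermat.Agent.Lib.Cheb.Spec

/-!
# CYC, algebraic input (helper223, shared lib CHEB, Tier 2)

`cycAlg` is the statement `CycAlgStatement` of helper221's CYC skeleton
(`origin/helper221:coord/CHEB-CYC.md`), in unfolded form: in the situation of
`Spec.CycStatement` (`L / ℚ` Galois, `ζ ∈ L` a primitive `m`-th root of unity, `⟨g⟩` faithful on
`ζ`), with `a = hζ.autToPow ℚ g`, `M = L^⟨g⟩`, the black boxes (A), (D), (M) of `Spec` give
ORD, SUPP, SPLIT, NT, FIN.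
-/

set_option autoImplicit false
set_option linter.style.haveILetI false

open NumberField
open scoped Pointwise

namespace Fermat.Agent.Lib.Cheb.H223

open Fermat.Agent.Lib.Cheb

section basic

variable {L : Type} [Field L]

/-- The prime of `ℤ` below a prime of `𝓞 L` containing `p` has residue field of size `p`. -/
theorem card_quot_under_eq {p : ℕ} (hp : p.Prime) {P : Ideal (𝓞 L)} (hP : P.IsPrime)
    (hpP : (p : 𝓞 L) ∈ P) : Nat.card (ℤ ⧸ P.under ℤ) = p := by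
  haveI : Fact p.Prime := ⟨hp⟩
  have hle : Ideal.span {(p : ℤ)} ≤ P.under ℤ := by
    rw [Ideal.span_le, Set.singleton_subset_iff]
    show algebraMap ℤ (𝓞 L) (p : ℤ) ∈ P
    simpa using hpP
  have hne : P.under ℤ ≠ ⊤ := (Ideal.IsPrime.under ℤ P).ne_top
  have heq : Ideal.span {(p : ℤ)} = P.under ℤ :=
    (Int.ideal_span_isMaximal_of_prime p).eq_of_le hne hle
  rw [← heq, Int.card_ideal_quot]

/-- `m ∉ P` for `P ∣ p`, `p ∤ m`. -/
theorem natCast_notMem_of_not_dvd {p m : ℕ} (hp : p.Prime) (hpm : ¬ p ∣ m) {P : Ideal (𝓞 L)}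
    (hP : P.IsPrime) (hpP : (p : 𝓞 L) ∈ P) : (m : 𝓞 L) ∉ P := by
  intro hm
  have hcop : Nat.Coprime p m := (Nat.Prime.coprime_iff_not_dvd hp).mpr hpm
  have h1 : ((Nat.gcd p m : ℕ) : 𝓞 L) ∈ P := by
    have hb := Nat.gcd_eq_gcd_ab p m
    have : ((Nat.gcd p m : ℤ) : 𝓞 L) ∈ P := by
      rw [hb]
      push_cast
      exact P.add_mem (P.mul_mem_right _ hpP) (P.mul_mem_right _ hm)
    simpa using this
  rw [hcop, Nat.cast_one] at h1
  exact hP.ne_top ((Ideal.eq_top_iff_one P).mpr h1)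

/-- An arithmetic Frobenius at `P ∣ p` raises roots of unity of order prime to `p` to the
`p`-th power. -/
theorem frob_apply_root [NumberField L] {p m : ℕ} (hp : p.Prime) (hpm : ¬ p ∣ m) {P : Ideal (𝓞 L)}
    (hP : P.IsPrime) (hpP : (p : 𝓞 L) ∈ P) {τ : L ≃ₐ[ℚ] L} (hτ : IsArithFrobAt ℤ τ P)
    {ζ : L} (hm : 0 < m) (hζ : ζ ^ m = 1) : τ ζ = ζ ^ p := by
  have hint : IsIntegral ℤ ζ := ⟨Polynomial.X ^ m - 1,
    Polynomial.monic_X_pow_sub_C 1 hm.ne', by simp [hζ]⟩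
  let z : 𝓞 L := ⟨ζ, hint⟩
  have hzval : algebraMap (𝓞 L) L z = ζ := rfl
  have hz : z ^ m = 1 := by
    apply RingOfIntegers.ext
    change algebraMap (𝓞 L) L (z ^ m) = algebraMap (𝓞 L) L 1
    rw [map_pow, map_one, hzval, hζ]
  have h1 := AlgHom.IsArithFrobAt.apply_of_pow_eq_one hτ hz
    (natCast_notMem_of_not_dvd hp hpm hP hpP)
  rw [card_quot_under_eq hp hP hpP] at h1
  have h2 := congrArg (algebraMap (𝓞 L) L) h1
  rw [map_pow, hzval] at h2
  exact h2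

end basic

section cyc

variable {L : Type} [Field L] [NumberField L] {m : ℕ} [NeZero m] {ζ : L}

omit [NumberField L] in
/-- powers of a primitive root are equal iff the exponents are congruent -/
theorem pow_eq_pow_iff_natCast_eq (hζ : IsPrimitiveRoot ζ m) (a b : ℕ) :
    ζ ^ a = ζ ^ b ↔ (a : ZMod m) = (b : ZMod m) := by
  have hz : ζ ≠ 0 := hζ.ne_zero (NeZero.ne m)
  rw [← sub_eq_zero (a := (a : ZMod m)), ← Int.cast_natCast a, ← Int.cast_natCast b,
    ← Int.cast_sub, ZMod.intCast_zmod_eq_zero_iff_dvd, ← hζ.zpow_eq_one_iff_dvd,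
    zpow_sub₀ hz, zpow_natCast, zpow_natCast, div_eq_one_iff_eq (pow_ne_zero _ hz)]

/-- `autToPow f ≡ n` iff `f ζ = ζ ^ n`. -/
theorem autToPow_coe_eq_natCast_iff (hζ : IsPrimitiveRoot ζ m) (f : L ≃ₐ[ℚ] L) (n : ℕ) :
    ((hζ.autToPow ℚ f : (ZMod m)ˣ) : ZMod m) = (n : ZMod m) ↔ f ζ = ζ ^ n := by
  rw [← hζ.autToPow_spec ℚ f, pow_eq_pow_iff_natCast_eq hζ, ZMod.natCast_zmod_val]

/-- `autToPow f = 1` iff `f ζ = ζ`. -/
theorem autToPow_eq_one_iff (hζ : IsPrimitiveRoot ζ m) (f : L ≃ₐ[ℚ] L) :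
    hζ.autToPow ℚ f = 1 ↔ f ζ = ζ := by
  have h := autToPow_coe_eq_natCast_iff hζ f 1
  rw [pow_one, Nat.cast_one] at h
  rw [← h, Units.val_eq_one]

variable {g : L ≃ₐ[ℚ] L}

/-- an element of `⟨g⟩` fixing `ζ` is trivial -/
theorem eq_one_of_mem_zpowers_of_apply_eq (hg : ∀ k : ℕ, (g ^ k) ζ = ζ → g ^ k = 1)
    {h : L ≃ₐ[ℚ] L} (hh : h ∈ Subgroup.zpowers g) (hfix : h ζ = ζ) : h = 1 := by
  have hfin : IsOfFinOrder g := isOfFinOrder_of_finite g
  obtain ⟨k, rfl⟩ := (Submonoid.mem_powers_iff _ _).mp (hfin.mem_powers_iff_mem_zpowers.mpr hh)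
  exact hg k hfix

/-- two elements of `⟨g⟩` agreeing on `ζ` are equal -/
theorem eq_of_mem_zpowers_of_apply_eq (hg : ∀ k : ℕ, (g ^ k) ζ = ζ → g ^ k = 1)
    {h₁ h₂ : L ≃ₐ[ℚ] L} (hh₁ : h₁ ∈ Subgroup.zpowers g) (hh₂ : h₂ ∈ Subgroup.zpowers g)
    (hfix : h₁ ζ = h₂ ζ) : h₁ = h₂ := by
  have h1 : h₂⁻¹ * h₁ = 1 := by
    apply eq_one_of_mem_zpowers_of_apply_eq hg
      ((Subgroup.zpowers g).mul_mem ((Subgroup.zpowers g).inv_mem hh₂) hh₁)
    rw [AlgEquiv.mul_apply, hfix]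
    exact h₂.symm_apply_apply ζ
  exact (inv_mul_eq_one.mp h1).symm

/-- (ORD) -/
theorem card_zpowers_autToPow (hζ : IsPrimitiveRoot ζ m)
    (hg : ∀ k : ℕ, (g ^ k) ζ = ζ → g ^ k = 1) :
    Nat.card (Subgroup.zpowers (hζ.autToPow ℚ g)) = orderOf g := by
  rw [Nat.card_zpowers]
  apply Nat.dvd_antisymm (orderOf_map_dvd _ g)
  apply orderOf_dvd_of_pow_eq_one
  exact hg _ ((autToPow_eq_one_iff hζ _).mp (by rw [map_pow, pow_orderOf_eq_one]))

end cyc

section count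

variable {L : Type} [Field L] [NumberField L]

/-- the primes above `p` with decomposition group in `H` form a finite set -/
theorem finite_primesLe (H : Subgroup (L ≃ₐ[ℚ] L)) {p : ℕ} (hp : p.Prime) :
    (Spec.primesLe L H p).Finite := by
  have hp' : Prime (p : ℤ) := Nat.prime_iff_prime_int.mp hp
  refine Set.Finite.subset
    (Algebra.QuasiFinite.finite_primesOver (S := 𝓞 L) (Ideal.span {(p : ℤ)})) ?_
  rintro P ⟨hP1, hP2, -⟩
  refine ⟨hP1, ?_⟩
  rw [Ideal.liesOver_span_iff hP1.ne_top hp']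
  simpa using hP2

/-- `decompWeight ≠ 0` iff there is a prime above `p` with decomposition group in `H` -/
theorem decompWeight_ne_zero_iff (H : Subgroup (L ≃ₐ[ℚ] L)) {p : ℕ} (hp : p.Prime) :
    Spec.decompWeight L H p ≠ 0 ↔
      ∃ P : Ideal (𝓞 L), P.IsPrime ∧ (p : 𝓞 L) ∈ P ∧ Spec.decomp L P ≤ H := by
  classical
  have hfinS := finite_primesLe H hp
  have hR : Spec.decompWeight L H p = ∑ P ∈ hfinS.toFinset, Nat.card (Spec.decomp L P) := by
    rw [Spec.decompWeight,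
      finsum_set_coe_eq_finsum_mem (f := fun P => Nat.card (Spec.decomp L P)),
      finsum_mem_eq_finite_toFinset_sum _ hfinS]
  rw [hR]
  constructor
  · intro h
    obtain ⟨P, hP, -⟩ := Finset.exists_ne_zero_of_sum_ne_zero h
    rw [Set.Finite.mem_toFinset] at hP
    exact ⟨P, hP⟩
  · rintro ⟨P, hP⟩
    have hmem : P ∈ hfinS.toFinset := by
      rw [Set.Finite.mem_toFinset]
      exact hP
    have hpos : 0 < Nat.card (Spec.decomp L P) := Nat.card_pos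
    have hle := Finset.single_le_sum (f := fun P => Nat.card (Spec.decomp L P))
      (fun _ _ => Nat.zero_le _) hmem
    exact (lt_of_lt_of_le hpos hle).ne'

/-- (A) at `p`: `primeCount ≠ 0` iff there is a prime above `p` with decomposition group in
`H`. -/
theorem primeCount_ne_zero_iff (H : Subgroup (L ≃ₐ[ℚ] L)) {p : ℕ} (hp : p.Prime)
    (hA : Spec.primeCount (IntermediateField.fixedField H) p * Nat.card H =
      Spec.decompWeight L H p) :
    Spec.primeCount (IntermediateField.fixedField H) p ≠ 0 ↔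
      ∃ P : Ideal (𝓞 L), P.IsPrime ∧ (p : 𝓞 L) ∈ P ∧ Spec.decomp L P ≤ H := by
  rw [← decompWeight_ne_zero_iff H hp, ← hA]
  have hH : Nat.card H ≠ 0 := Nat.card_pos.ne'
  constructor
  · intro h
    exact mul_ne_zero h hH
  · intro h h0
    exact h (by rw [h0, zero_mul])

end count

section main

variable {L : Type} [Field L] [NumberField L] {m : ℕ} [NeZero m] {ζ : L}

/-- Frobenius data at a prime whose decomposition group lies in `H`. -/
theorem exists_frob_of_decomp_le (hζ : IsPrimitiveRoot ζ m) {p : ℕ} (hp : p.Prime)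
    (hpm : ¬ p ∣ m) {P : Ideal (𝓞 L)} (hP : P.IsPrime) (hpP : (p : 𝓞 L) ∈ P)
    (hD : ∃ τ : L ≃ₐ[ℚ] L, IsArithFrobAt ℤ τ P ∧ Spec.decomp L P = Subgroup.zpowers τ)
    {H : Subgroup (L ≃ₐ[ℚ] L)} (hle : Spec.decomp L P ≤ H) :
    ∃ τ : L ≃ₐ[ℚ] L, τ ∈ H ∧ IsArithFrobAt ℤ τ P ∧ τ ζ = ζ ^ p ∧
      Spec.decomp L P = Subgroup.zpowers τ := by
  obtain ⟨τ, hτ, hdec⟩ := hD
  refine ⟨τ, hle (hdec ▸ Subgroup.mem_zpowers τ), hτ, ?_, hdec⟩
  exact frob_apply_root hp hpm hP hpP hτ (Nat.pos_of_ne_zero (NeZero.ne m)) hζ.pow_eq_one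

/-- uniqueness of the Frobenius when inertia is trivial -/
theorem frob_unique {P : Ideal (𝓞 L)} (hI : Spec.InertiaTrivial L P) {τ τ' : L ≃ₐ[ℚ] L}
    (hτ : IsArithFrobAt ℤ τ P) (hτ' : IsArithFrobAt ℤ τ' P) : τ = τ' := by
  have h := IsArithFrobAt.mul_inv_mem_inertia hτ hτ'
  have h1 : τ * τ'⁻¹ = 1 := hI _ (fun x => h x)
  exact mul_inv_eq_one.mp h1

/-- **(ALG)** the algebraic input of CYC (= `H221.CycAlgStatement`, unfolded). -/
theorem cycAlg : Spec.CountStatement → Spec.FrobStatement → Spec.FrobFiniteStatement →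
    ∀ (L : Type) [Field L] [NumberField L] [IsGalois ℚ L] (m : ℕ) [NeZero m] (ζ : L)
      (hζ : IsPrimitiveRoot ζ m) (g : L ≃ₐ[ℚ] L), (∀ k : ℕ, (g ^ k) ζ = ζ → g ^ k = 1) →
      Nat.card (Subgroup.zpowers (hζ.autToPow ℚ g)) = orderOf g ∧
      ∃ B : Finset ℕ,
        -- (SUPP)
        (∀ p : ℕ, p.Prime → p ∉ B →
          Spec.primeCount (IntermediateField.fixedField (Subgroup.zpowers g)) p ≠ 0 →
          ∃ u ∈ Subgroup.zpowers (hζ.autToPow ℚ g),
            ((u : (ZMod m)ˣ) : ZMod m) = (p : ZMod m)) ∧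
        -- (SPLIT)
        (∀ p : ℕ, p.Prime → p ∉ B →
          Spec.primeCount (IntermediateField.fixedField (⊥ : Subgroup (L ≃ₐ[ℚ] L))) p =
            if (p : ZMod m) = 1 then
              orderOf g * Spec.primeCount (IntermediateField.fixedField (Subgroup.zpowers g)) p
            else 0) ∧
        -- (NT)
        (∀ χ : DirichletCharacter ℂ m, χ ((hζ.autToPow ℚ g : (ZMod m)ˣ) : ZMod m) ≠ 1 →
          ∃ I : Ideal (𝓞 (IntermediateField.fixedField (Subgroup.zpowers g))),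
            χ (Ideal.absNorm I : ZMod m) ≠ 0 ∧ χ (Ideal.absNorm I : ZMod m) ≠ 1) ∧
        -- (FIN)
        (∀ p : ℕ, p.Prime → p ∉ B →
          Spec.primeCount (IntermediateField.fixedField (Subgroup.zpowers g)) p ≠ 0 →
          (p : ZMod m) = ((hζ.autToPow ℚ g : (ZMod m)ˣ) : ZMod m) →
          ∃ P : Ideal (𝓞 L), P.IsPrime ∧ (p : 𝓞 L) ∈ P ∧ Spec.InertiaTrivial L P ∧
            IsArithFrobAt ℤ g P) := by
  intro hA hD hM L _ _ _ m _ ζ hζ g hg
  refine ⟨card_zpowers_autToPow hζ hg, ?_⟩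
  obtain ⟨BH, hBH⟩ := hA L (Subgroup.zpowers g)
  obtain ⟨B0, hB0⟩ := hA L ⊥
  obtain ⟨BD, hBD⟩ := hD L
  have hm0 : m ≠ 0 := NeZero.ne m
  set B : Finset ℕ := BH ∪ B0 ∪ BD ∪ m.primeFactors with hB
  have hsplitB : ∀ p : ℕ, p.Prime → p ∉ B → p ∉ BH ∧ p ∉ B0 ∧ p ∉ BD ∧ ¬ p ∣ m := by
    intro p hp hpB
    simp only [hB, Finset.mem_union, not_or] at hpB
    refine ⟨hpB.1.1.1, hpB.1.1.2, hpB.1.2, fun hdvd => hpB.2 ?_⟩
    exact Nat.mem_primeFactors.mpr ⟨hp, hdvd, hm0⟩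
  -- the key fact: primes with decomposition group in `⟨g⟩`
  have key : ∀ p : ℕ, p.Prime → p ∉ B → ∀ P : Ideal (𝓞 L), P.IsPrime → (p : 𝓞 L) ∈ P →
      ∀ H : Subgroup (L ≃ₐ[ℚ] L), Spec.decomp L P ≤ H →
      Spec.InertiaTrivial L P ∧ ∃ τ : L ≃ₐ[ℚ] L, τ ∈ H ∧ IsArithFrobAt ℤ τ P ∧ τ ζ = ζ ^ p ∧
        Spec.decomp L P = Subgroup.zpowers τ := by
    intro p hp hpB P hP hpP H hle
    obtain ⟨-, -, hpD, hpm⟩ := hsplitB p hp hpB
    obtain ⟨hI, hτ⟩ := hBD p hp hpD P hP hpP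
    exact ⟨hI, exists_frob_of_decomp_le hζ hp hpm hP hpP hτ hle⟩
  have hgmem : g ∈ Subgroup.zpowers g := Subgroup.mem_zpowers g
  refine ⟨B, ?_, ?_, ?_, ?_⟩
  · -- SUPP
    intro p hp hpB hne
    obtain ⟨hpH, -, -, -⟩ := hsplitB p hp hpB
    obtain ⟨P, hP, hpP, hle⟩ := (primeCount_ne_zero_iff _ hp (hBH p hp hpH)).mp hne
    obtain ⟨-, τ, hτmem, -, hτζ, -⟩ := key p hp hpB P hP hpP _ hle
    refine ⟨hζ.autToPow ℚ τ, ?_, (autToPow_coe_eq_natCast_iff hζ τ p).mpr hτζ⟩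
    obtain ⟨k, rfl⟩ := Subgroup.mem_zpowers_iff.mp hτmem
    rw [map_zpow]
    exact Subgroup.zpow_mem_zpowers _ k
  · -- SPLIT
    intro p hp hpB
    obtain ⟨hpH, hp0, -, -⟩ := hsplitB p hp hpB
    have h0 := hB0 p hp hp0
    have hH := hBH p hp hpH
    rw [Subgroup.card_bot, mul_one] at h0
    rw [Nat.card_zpowers] at hH
    rw [h0]
    split_ifs with h1
    · -- `p ≡ 1`
      rw [mul_comm, hH]
      have hset : Spec.primesLe L ⊥ p = Spec.primesLe L (Subgroup.zpowers g) p := by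
        ext P
        constructor
        · rintro ⟨hP, hpP, hle⟩
          exact ⟨hP, hpP, hle.trans bot_le⟩
        · rintro ⟨hP, hpP, hle⟩
          refine ⟨hP, hpP, ?_⟩
          obtain ⟨-, τ, hτmem, -, hτζ, hdec⟩ := key p hp hpB P hP hpP _ hle
          have hτ1 : τ = 1 := by
            apply eq_one_of_mem_zpowers_of_apply_eq hg hτmem
            rw [hτζ]
            have := (pow_eq_pow_iff_natCast_eq hζ p 1).mpr (by rw [h1, Nat.cast_one])
            rw [this, pow_one]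
          rw [hdec, hτ1, Subgroup.zpowers_one_eq_bot]
      unfold Spec.decompWeight
      rw [hset]
    · -- `p ≢ 1`
      by_contra hne
      obtain ⟨P, hP, hpP, hle⟩ := (decompWeight_ne_zero_iff _ hp).mp hne
      obtain ⟨-, τ, hτmem, -, hτζ, -⟩ := key p hp hpB P hP hpP _ hle
      have hτ1 : τ = 1 := (Subgroup.mem_bot).mp hτmem
      rw [hτ1, AlgEquiv.one_apply] at hτζ
      have := (pow_eq_pow_iff_natCast_eq hζ 1 p).mp (by rw [pow_one]; exact hτζ)
      rw [Nat.cast_one] at this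
      exact h1 this.symm
  · -- NT
    intro χ hχ
    obtain ⟨p, P, τ, hp, hpB, hP, hpP, hI, hτ, hzp⟩ := hM L g B
    obtain ⟨hpH, -, hpD, hpm⟩ := hsplitB p hp hpB
    obtain ⟨-, τ', hτ', hdec⟩ := hBD p hp hpD P hP hpP
    have hττ' : τ = τ' := frob_unique hI hτ hτ'
    have hle : Spec.decomp L P ≤ Subgroup.zpowers g := by
      rw [hdec, ← hττ', hzp]
    have hne : Spec.primeCount (IntermediateField.fixedField (Subgroup.zpowers g)) p ≠ 0 :=
      (primeCount_ne_zero_iff _ hp (hBH p hp hpH)).mpr ⟨P, hP, hpP, hle⟩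
    have hnonempty : Nonempty {𝔮 : Ideal (𝓞 (IntermediateField.fixedField (Subgroup.zpowers g))) //
        𝔮.IsPrime ∧ Ideal.absNorm 𝔮 = p} := by
      by_contra hemp
      rw [not_nonempty_iff] at hemp
      exact hne Nat.card_of_isEmpty
    obtain ⟨⟨I, -, hI⟩⟩ := hnonempty
    have hτζ : τ ζ = ζ ^ p :=
      frob_apply_root hp hpm hP hpP hτ (Nat.pos_of_ne_zero hm0) hζ.pow_eq_one
    have hup : ((hζ.autToPow ℚ τ : (ZMod m)ˣ) : ZMod m) = (p : ZMod m) :=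
      (autToPow_coe_eq_natCast_iff hζ τ p).mpr hτζ
    refine ⟨I, ?_, ?_⟩
    · rw [hI, ← hup]
      exact (IsUnit.map χ (Units.isUnit _)).ne_zero
    · rw [hI, ← hup]
      intro h1
      apply hχ
      have hgτ : g ∈ Subgroup.zpowers τ := hzp ▸ hgmem
      obtain ⟨k, hk⟩ := Subgroup.mem_zpowers_iff.mp hgτ
      have h2 : χ.toUnitHom (hζ.autToPow ℚ τ) = 1 := by
        apply Units.ext
        rw [MulChar.coe_toUnitHom]
        exact h1
      have h3 : χ.toUnitHom (hζ.autToPow ℚ g) = 1 := by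
        rw [← hk, map_zpow, map_zpow, h2, one_zpow]
      have h4 := congrArg Units.val h3
      rw [MulChar.coe_toUnitHom] at h4
      exact h4
  · -- FIN
    intro p hp hpB hne hpa
    obtain ⟨hpH, -, -, -⟩ := hsplitB p hp hpB
    obtain ⟨P, hP, hpP, hle⟩ := (primeCount_ne_zero_iff _ hp (hBH p hp hpH)).mp hne
    obtain ⟨hI, τ, hτmem, hτ, hτζ, -⟩ := key p hp hpB P hP hpP _ hle
    have hgζ : g ζ = ζ ^ p := (autToPow_coe_eq_natCast_iff hζ g p).mp hpa.symm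
    have hτg : τ = g := eq_of_mem_zpowers_of_apply_eq hg hτmem hgmem (hτζ.trans hgζ.symm)
    exact ⟨P, hP, hpP, hI, hτg ▸ hτ⟩

end main

end Fermat.Agent.Lib.Cheb.H223
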